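import Fermat.Agent.NonresidueOmega.Squares
import Mathlib.NumberTheory.LegendreSymbol.QuadraticReciprocity

/-!
# Montgomery: the least quadratic nonresidue is not `o (log p log log p)`, on GRH

The characters `χ₄`, `χ₈` and the Legendre symbols modulo the odd primes `q ≤ N`, all at the level
`8 ∏ q`, give a prime `p ≤ exp (C N / log N)` modulo which all `n ≤ N` are squares.
-/

set_option autoImplicit false

noncomputable section

namespace FA.NonresidueOmega

open Finset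
open DirichletCharacter (changeLevel changeLevel_eq_cast_of_dvd')
open FA.DirichletHadamard (GRHFor)
open scoped Classical

theorem changeLevel_nat {d m : ℕ} (h : d ∣ m) (χ : DirichletCharacter ℂ d) {n : ℕ}
    (hn : n.Coprime m) : changeLevel h χ (n : ZMod m) = χ n := by
  simpa using changeLevel_eq_cast_of_dvd' χ h (a := (n : ℤ)) (Nat.isCoprime_iff_coprime.2 hn)

/-- An integral real character as a complex one of level `m`. -/
def liftReal {d m : ℕ} (h : d ∣ m) (χ : MulChar (ZMod d) ℤ) : DirichletCharacter ℂ m :=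
  changeLevel h (χ.ringHomComp (Int.castRingHom ℂ))

theorem liftReal_sq {d m : ℕ} (h : d ∣ m) {χ : MulChar (ZMod d) ℤ} (hχ : χ.IsQuadratic) :
    liftReal h χ ^ 2 = 1 := by
  rw [liftReal, ← map_pow, (hχ.comp _).sq_eq_one, map_one]

theorem liftReal_eq_one_iff {d m : ℕ} (h : d ∣ m) (χ : MulChar (ZMod d) ℤ) {n : ℕ}
    (hn : n.Coprime m) : liftReal h χ (n : ZMod m) = 1 ↔ χ (n : ZMod d) = 1 := by
  rw [liftReal, changeLevel_nat h _ hn, MulChar.ringHomComp_apply, eq_intCast, Int.cast_eq_one]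

/-- The level. -/
def level (N : ℕ) : ℕ := 8 * ∏ q ∈ ((Icc 1 N).filter Nat.Prime).erase 2, q

theorem mem_oddPrimes {N q : ℕ} :
    q ∈ ((Icc 1 N).filter Nat.Prime).erase 2 ↔ q ≠ 2 ∧ q.Prime ∧ q ≤ N := by
  rw [mem_erase, mem_filter, mem_Icc]
  exact ⟨fun h => ⟨h.1, h.2.2, h.2.1.2⟩, fun h => ⟨h.1, ⟨h.2.1.one_le, h.2.2⟩, h.2.1⟩⟩

theorem level_le (N : ℕ) : level N ≤ 8 * 4 ^ N := by
  refine Nat.mul_le_mul_left 8 (le_trans ?_ (primorial_le_four_pow N))
  rw [primorial]
  refine prod_le_prod_of_subset_of_one_le' (fun q hq => ?_) fun q hq _ => (mem_filter.1 hq).2.one_le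
  rw [mem_oddPrimes] at hq
  exact mem_filter.2 ⟨mem_range.2 (by omega), hq.2.1⟩

theorem level_pos (N : ℕ) : 0 < level N :=
  mul_pos (by norm_num) (prod_pos fun _ hq => (mem_oddPrimes.1 hq).2.1.pos)

instance (N : ℕ) : NeZero (level N) := ⟨(level_pos N).ne'⟩

/-- All `n ≤ N` are squares modulo `p`. -/
theorem isSquare_of_primes {N p : ℕ} (h : ∀ q : ℕ, q.Prime → q ≤ N → IsSquare (q : ZMod p))
    {n : ℕ} (hn : n ≤ N) : IsSquare (n : ZMod p) := by
  induction n using induction_on_primes with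
  | zero => exact ⟨0, by simp⟩
  | one => exact ⟨1, by simp⟩
  | prime_mul q a hq ih =>
    rcases Nat.eq_zero_or_pos a with rfl | ha
    · exact ⟨0, by simp⟩
    · rw [Nat.cast_mul]
      exact (h q hq ((Nat.le_mul_of_pos_right q ha).trans hn)).mul
        (ih ((Nat.le_mul_of_pos_left a hq.pos).trans hn))

theorem primeCount_mul_log_le {N : ℕ} (hN : 1 ≤ N) :
    (((Icc 1 N).filter Nat.Prime).card : ℝ) * Real.log N ≤ 6 * N := by
  obtain ⟨P, hP⟩ : ∃ P, P = (Icc 1 N).filter Nat.Prime := ⟨_, rfl⟩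
  rw [← hP]
  have hN1 : (1 : ℝ) ≤ N := Nat.one_le_cast.2 hN
  have hl0 := Real.log_natCast_nonneg N
  have hsmall : (((P.filter fun q : ℕ => (q : ℝ) ≤ √N).card : ℝ)) ≤ √N := by
    refine le_trans (Nat.cast_le.2 ((card_le_card (t := Icc 1 ⌊√(N : ℝ)⌋₊) fun q hq => ?_).trans
      (Nat.card_Icc 1 _).le)) (Nat.floor_le (Real.sqrt_nonneg _))
    rw [mem_filter, hP, mem_filter, mem_Icc] at hq
    exact mem_Icc.2 ⟨hq.1.1.1, Nat.le_floor hq.2⟩
  have hpt : ∀ q ∈ P, Real.log N / 2 ≤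
      Real.log q + if (q : ℝ) ≤ √N then Real.log N / 2 else 0 := by
    intro q _
    split_ifs with hq
    · linarith [Real.log_natCast_nonneg q]
    · have h1 := Real.log_le_log (Real.sqrt_pos.2 (by linarith)) (not_le.1 hq).le
      rw [Real.log_sqrt (Nat.cast_nonneg _)] at h1
      linarith
  have h := sum_le_sum hpt
  rw [sum_const, nsmul_eq_mul, sum_add_distrib, ← sum_filter, sum_const, nsmul_eq_mul] at h
  have hth : ∑ q ∈ P, Real.log q ≤ 2 * N := by
    have h1 := Chebyshev.theta_le_log4_mul_x (Nat.cast_nonneg N : (0 : ℝ) ≤ N)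
    rw [Chebyshev.theta, Nat.floor_natCast] at h1
    rw [hP, show Icc 1 N = Ioc 0 N from by ext; simp; omega]
    refine h1.trans (mul_le_mul_of_nonneg_right ?_ (Nat.cast_nonneg N))
    rw [show (4 : ℝ) = 2 ^ 2 by norm_num, Real.log_pow]
    push_cast
    linarith [Real.log_two_lt_d9]
  have hsl : √(N : ℝ) * (Real.log N / 2) ≤ N := by
    have h1 := Real.log_le_sub_one_of_pos (Real.sqrt_pos.2 (show (0 : ℝ) < N by linarith))
    rw [Real.log_sqrt (Nat.cast_nonneg _)] at h1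
    calc √(N : ℝ) * (Real.log N / 2) ≤ √(N : ℝ) * √(N : ℝ) := by gcongr; linarith
      _ = N := Real.mul_self_sqrt (Nat.cast_nonneg _)
  have := mul_le_mul_of_nonneg_right hsmall (show (0 : ℝ) ≤ Real.log N / 2 by linarith)
  linarith

/-- The characters: `χ₄`, `χ₈` and the Legendre symbols of the odd primes `≤ N`. -/
def charSet (N : ℕ) : Finset (DirichletCharacter ℂ (level N)) :=
  insert (liftReal ((show (4 : ℕ) ∣ 8 by norm_num).trans (Dvd.intro _ rfl)) ZMod.χ₄)
    (insert (liftReal (Dvd.intro _ rfl) ZMod.χ₈)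
      ((((Icc 1 N).filter Nat.Prime).erase 2).attach.image fun q =>
        haveI := Fact.mk (mem_oddPrimes.1 q.2).2.1
        liftReal ((dvd_prod_of_mem (fun i => i) q.2).trans (Dvd.intro_left _ rfl))
          (quadraticChar (ZMod q.1))))

theorem charSet_sq {N : ℕ} : ∀ χ ∈ charSet N, χ ^ 2 = 1 := by
  intro χ hχ
  rw [charSet] at hχ
  rcases Finset.mem_insert.1 hχ with rfl | hχ
  · exact liftReal_sq _ ZMod.isQuadratic_χ₄
  rcases Finset.mem_insert.1 hχ with rfl | hχ
  · exact liftReal_sq _ ZMod.isQuadratic_χ₈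
  obtain ⟨q, -, rfl⟩ := Finset.mem_image.1 hχ
  have := Fact.mk (mem_oddPrimes.1 q.2).2.1
  exact liftReal_sq _ (quadraticChar_isQuadratic _)

theorem charSet_card (N : ℕ) : (charSet N).card ≤ ((Icc 1 N).filter Nat.Prime).card + 2 := by
  refine (card_insert_le _ _).trans (Nat.add_le_add_right ((card_insert_le _ _).trans
    (Nat.add_le_add_right (card_image_le.trans ?_) 1)) 1)
  rw [card_attach]
  exact card_erase_le

/-- Where the characters are `1`, all `n ≤ N` are squares. -/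
theorem isSquare_of_charSet {N p : ℕ} (hp : p.Prime) (hc : p.Coprime (level N))
    (h : ∀ χ ∈ charSet N, χ (p : ZMod (level N)) = 1) :
    N < p ∧ ∀ n ≤ N, IsSquare (n : ZMod p) := by
  have := Fact.mk hp
  rw [charSet] at h
  have h4 := h _ (Finset.mem_insert_self _ _)
  have h8 := h _ (Finset.mem_insert_of_mem (Finset.mem_insert_self _ _))
  have hq := fun q : {q // q ∈ ((Icc 1 N).filter Nat.Prime).erase 2} =>
    h _ (Finset.mem_insert_of_mem (Finset.mem_insert_of_mem
      (Finset.mem_image_of_mem _ (Finset.mem_attach _ q))))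
  have h4 := (liftReal_eq_one_iff _ ZMod.χ₄ hc).1 h4
  have h8 := (liftReal_eq_one_iff _ ZMod.χ₈ hc).1 h8
  rw [ZMod.χ₄_nat_eq_if_mod_four] at h4
  rw [ZMod.χ₈_nat_eq_if_mod_eight] at h8
  have h4' : p % 4 = 1 := by split_ifs at h4 <;> omega
  have h8' : p % 8 = 1 := by split_ifs at h8 <;> omega
  refine ⟨not_le.1 fun hle => ?_, fun n hn => isSquare_of_primes (fun q hqp hqN => ?_) hn⟩
  · exact hp.not_dvd_one (hc ▸ Nat.dvd_gcd dvd_rfl
      ((dvd_prod_of_mem (fun i => i) (mem_oddPrimes.2 ⟨by omega, hp, hle⟩)).trans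
        (Dvd.intro_left _ rfl)))
  · rcases eq_or_ne q 2 with rfl | hq2
    · rw [Nat.cast_ofNat]
      exact (ZMod.exists_sq_eq_two_iff (by omega)).2 (Or.inl h8')
    · have := Fact.mk hqp
      have h1 := hq ⟨q, mem_oddPrimes.2 ⟨hq2, hqp, hqN⟩⟩
      have h1 := (liftReal_eq_one_iff _ _ hc).1 h1
      rw [ZMod.exists_sq_eq_prime_iff_of_mod_four_eq_one h4' hq2]
      refine (quadraticChar_one_iff_isSquare fun h0 => ?_).1 h1
      exact hqp.not_dvd_one (hc.symm.coprime_dvd_left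
        ((dvd_prod_of_mem (fun i => i) (mem_oddPrimes.2 ⟨hq2, hqp, hqN⟩)).trans
          (Dvd.intro_left _ rfl)) ▸ Nat.dvd_gcd dvd_rfl ((ZMod.natCast_eq_zero_iff p q).1 h0))

/-- **A small prime modulo which all `n ≤ N` are squares.** -/
theorem exists_prime_all_squares : ∃ C : ℝ, 0 < C ∧ ∀ N : ℕ, 2 ≤ N →
    (∀ χ : DirichletCharacter ℂ (level N), χ ^ 2 = 1 → χ ≠ 1 → GRHFor χ) →
      ∃ p : ℕ, p.Prime ∧ N < p ∧ Real.log p ≤ C * (N / Real.log N) ∧
        ∀ n ≤ N, IsSquare (n : ZMod p) := by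
  obtain ⟨A, hA, h⟩ := exists_prime_allOne
  refine ⟨4 * Real.log A + 30, by linarith [Real.log_nonneg hA], fun N hN hG => ?_⟩
  have : NeZero (level N) := ⟨(level_pos N).ne'⟩
  obtain ⟨p, hp, hc, hone, hle⟩ := h (level N) (charSet N) charSet_sq hG
  obtain ⟨hNp, hsq⟩ := isSquare_of_charSet hp hc hone
  refine ⟨p, hp, hNp, ?_, hsq⟩
  have hN2 : (2 : ℝ) ≤ N := Nat.ofNat_le_cast.2 hN
  obtain ⟨P, hP⟩ : ∃ P : ℝ, P = (((Icc 1 N).filter Nat.Prime).card : ℝ) := ⟨_, rfl⟩
  have hPN := hP ▸ primeCount_mul_log_le (show 1 ≤ N by omega)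
  have hlog : 0 < Real.log N := Real.log_pos (by linarith)
  have hl2 := Real.log_two_gt_d9
  have hl2' := Real.log_two_lt_d9
  obtain ⟨L, hL⟩ : ∃ L, L = Real.log (2 * (level N : ℕ)) := ⟨_, rfl⟩
  have hm1 : (1 : ℝ) ≤ (level N : ℕ) := Nat.one_le_cast.2 (level_pos N)
  have hL0 : 0 < L := hL ▸ Real.log_pos (by linarith)
  have hL3 : L ≤ 3 * N := by
    have h1 : ((level N : ℕ) : ℝ) ≤ 8 * 4 ^ N := by exact_mod_cast level_le N
    rw [hL]
    refine (Real.log_le_log (by linarith) (mul_le_mul_of_nonneg_left h1 zero_le_two)).trans ?_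
    rw [show (2 : ℝ) * (8 * 4 ^ N) = 2 ^ (4 + 2 * N) by rw [pow_add, pow_mul]; norm_num; ring,
      Real.log_pow]
    push_cast
    nlinarith
  rw [← hL] at hle
  have hlp : Real.log p ≤ Real.log A + 2 * ((P + 2) * Real.log 2 + Real.log L) := by
    refine (Real.log_le_log (Nat.cast_pos.2 hp.pos) hle).trans ?_
    rw [Real.log_mul (by linarith) (by positivity), Real.log_pow, Real.log_mul (by positivity)
      hL0.ne', Real.log_pow]
    push_cast
    have hk : ((charSet N).card : ℝ) ≤ P + 2 := by rw [hP]; exact_mod_cast charSet_card N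
    have := mul_le_mul_of_nonneg_right hk (show (0 : ℝ) ≤ Real.log 2 by linarith)
    linarith
  have hlL : Real.log L ≤ Real.log 3 + Real.log N := by
    rw [← Real.log_mul (by norm_num) (by linarith)]
    exact Real.log_le_log hL0 hL3
  have hl3 : Real.log 3 ≤ 2 := by
    linarith [Real.log_le_sub_one_of_pos (show (0 : ℝ) < 3 by norm_num)]
  rw [mul_div_assoc', le_div_iff₀ hlog]
  have hsq2 : Real.log N * Real.log N ≤ 4 * N := by
    have h1 := Real.log_le_sub_one_of_pos (Real.sqrt_pos.2 (show (0 : ℝ) < N by linarith))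
    rw [Real.log_sqrt (Nat.cast_nonneg _)] at h1
    calc Real.log N * Real.log N ≤ (2 * √(N : ℝ)) * (2 * √(N : ℝ)) := by gcongr <;> linarith
      _ = 4 * (√(N : ℝ) * √(N : ℝ)) := by ring
      _ = _ := by rw [Real.mul_self_sqrt (Nat.cast_nonneg _)]
  have hlN : Real.log N ≤ N := by
    linarith [Real.log_le_sub_one_of_pos (show (0 : ℝ) < N by linarith)]
  have h1 := mul_le_mul_of_nonneg_right hlp hlog.le
  have h2 := mul_le_mul_of_nonneg_right hlL hlog.le
  have h3 := mul_le_mul_of_nonneg_left hlN (Real.log_nonneg hA)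
  have h4 := mul_le_mul_of_nonneg_right hl3 hlog.le
  have h5 := mul_le_mul_of_nonneg_right hl2'.le (show 0 ≤ (P + 2) * Real.log N by
    rw [hP]; positivity)
  nlinarith [mul_nonneg (Real.log_nonneg hA) (show (0 : ℝ) ≤ N by linarith)]

/-- **Montgomery: `≫ log p log log p` infinitely often.** -/
theorem exists_arbitrarily_large : ∃ c : ℝ, 0 < c ∧
    ((∀ (m : ℕ) [NeZero m] (χ : DirichletCharacter ℂ m), χ ^ 2 = 1 → χ ≠ 1 → GRHFor χ) →
      ∀ B : ℕ, ∃ p : ℕ, p.Prime ∧ B < p ∧ ∀ n : ℕ,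
        (n : ℝ) ≤ c * (Real.log p * Real.log (Real.log p)) → IsSquare (n : ZMod p)) := by
  obtain ⟨C, hC, h⟩ := exists_prime_all_squares
  refine ⟨1 / (2 * C), by positivity, fun hG B => ?_⟩
  obtain ⟨N, hN⟩ : ∃ N : ℕ, N = max (max B ⌈C⌉₊) 3 := ⟨_, rfl⟩
  have : NeZero (level N) := ⟨(level_pos N).ne'⟩
  obtain ⟨p, hp, hNp, hlog, hsq⟩ := h N (by omega) (hG (level N))
  refine ⟨p, hp, by omega, fun n hn => hsq n ?_⟩
  have hN3 : (3 : ℝ) ≤ N := Nat.ofNat_le_cast.2 (by omega)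
  have hlN : 1 ≤ Real.log N := by
    rw [← Real.log_exp 1]
    exact Real.log_le_log (Real.exp_pos 1) (by linarith [Real.exp_one_lt_d9])
  have hlp : 1 ≤ Real.log p := hlN.trans
    (Real.log_le_log (by linarith) (Nat.cast_le.2 hNp.le))
  have hCN : C ≤ N := (Nat.le_ceil C).trans (Nat.cast_le.2 (by omega))
  have hll : Real.log (Real.log p) ≤ 2 * Real.log N := by
    have h1 : Real.log p ≤ (N : ℝ) * N := hlog.trans (by
      refine mul_le_mul hCN ?_ (by positivity) (by linarith)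
      exact div_le_self (by linarith) hlN)
    refine (Real.log_le_log (by linarith) h1).trans (le_of_eq ?_)
    rw [Real.log_mul (by linarith) (by linarith)]
    ring
  have h2 : Real.log p * Real.log (Real.log p) ≤ 2 * C * N := by
    refine (mul_le_mul hlog hll (Real.log_nonneg hlp) (by positivity)).trans (le_of_eq ?_)
    field_simp
  have h3 : (n : ℝ) ≤ N := by
    refine hn.trans ((mul_le_mul_of_nonneg_left h2 (by positivity)).trans (le_of_eq ?_))
    field_simp
  exact_mod_cast h3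

end FA.NonresidueOmega

end
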