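import Fermat.Agent.LOneGRH.Euler
import Mathlib.NumberTheory.Chebyshev

/-!
# A prime at which a set of real characters is `1`, on GRH

For `k` real characters modulo `m` the `n ≤ x` where all are `1` carry at least `2 ^ (-k)` of the
weight `Λ n (x - n)`, up to `O (x ^ (3/2) log m)`, and the prime powers are negligible.
-/

set_option autoImplicit false

noncomputable section

namespace FA.NonresidueOmega

open Finset
open FA.DirichletHadamard (GRHFor)
open FA.Gallagher (psiOneChar twist)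
open scoped ArithmeticFunction.vonMangoldt Chebyshev Classical

variable {m : ℕ}

/-- The `n ≤ x` prime to `m`. -/
def coprimeRange (m : ℕ) (x : ℝ) : Finset ℕ := (Icc 1 ⌊x⌋₊).filter fun n => n.Coprime m

/-- The weight of `n`. -/
def lamWt (x : ℝ) (n : ℕ) : ℝ := Λ n * (x - n)

/-- The `n ≤ x` prime to `m` at which every character of `I` is `1`. -/
def allOne (I : Finset (DirichletCharacter ℂ m)) (x : ℝ) : Finset ℕ :=
  (coprimeRange m x).filter fun n : ℕ => ∀ χ ∈ I, χ (n : ZMod m) = 1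

theorem lamWt_nonneg {x : ℝ} {n : ℕ} (hn : n ∈ Icc 1 ⌊x⌋₊) : 0 ≤ lamWt x n := by
  rw [mem_Icc] at hn
  exact mul_nonneg ArithmeticFunction.vonMangoldt_nonneg
    (sub_nonneg.2 ((Nat.le_floor_iff' (by omega)).1 hn.2))

theorem of_mem_allOne {I : Finset (DirichletCharacter ℂ m)} {x : ℝ} {n : ℕ}
    (h : n ∈ allOne I x) :
    n ∈ Icc 1 ⌊x⌋₊ ∧ n.Coprime m ∧ ∀ χ ∈ I, χ (n : ZMod m) = 1 := by
  simp only [allOne, coprimeRange, mem_filter] at h
  exact ⟨h.1.1, h.1.2, h.2⟩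

theorem psiOneChar_eq_coprime (χ : DirichletCharacter ℂ m) (x : ℝ) :
    psiOneChar χ x = ∑ n ∈ coprimeRange m x, χ n * (lamWt x n : ℂ) := by
  rw [psiOneChar, coprimeRange, sum_filter]
  refine sum_congr rfl fun n _ => ?_
  split_ifs with h
  · rw [twist, lamWt, Complex.ofReal_mul, mul_assoc]
  · rw [twist, MulChar.map_nonunit χ fun h' => h ((ZMod.isUnit_iff_coprime n m).1 h'),
      zero_mul, zero_mul]

theorem prod_apply_coprime (T : Finset (DirichletCharacter ℂ m)) {n : ℕ} (hn : n.Coprime m) :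
    (∏ χ ∈ T, χ) (n : ZMod m) = ∏ χ ∈ T, χ (n : ZMod m) := by
  induction T using Finset.induction with
  | empty => simp [MulChar.one_apply ((ZMod.isUnit_iff_coprime n m).2 hn)]
  | insert a T ha ih => rw [prod_insert ha, prod_insert ha, MulChar.mul_apply, ih]

/-- A real character is `1` or `-1` prime to the modulus. -/
theorem real_apply {χ : DirichletCharacter ℂ m} (h : χ ^ 2 = 1) {n : ℕ} (hn : n.Coprime m) :
    χ (n : ZMod m) = 1 ∨ χ (n : ZMod m) = -1 := by
  have hu := (ZMod.isUnit_iff_coprime n m).2 hn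
  have e : χ (n : ZMod m) ^ 2 = 1 := by
    rw [← MulChar.pow_apply' χ two_ne_zero, h, MulChar.one_apply hu]
  exact sq_eq_one_iff.1 e

/-- The indicator of `χ = 1` for all `χ ∈ I`, by characters. -/
theorem indicator_allOne {I : Finset (DirichletCharacter ℂ m)} (hI : ∀ χ ∈ I, χ ^ 2 = 1)
    {n : ℕ} (hn : n.Coprime m) :
    ∑ T ∈ I.powerset, (∏ χ ∈ T, χ) (n : ZMod m) =
      if ∀ χ ∈ I, χ (n : ZMod m) = 1 then (2 : ℂ) ^ I.card else 0 := by
  simp only [prod_apply_coprime _ hn]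
  rw [← prod_one_add]
  split_ifs with h
  · exact (prod_congr rfl fun χ hχ => by rw [h χ hχ, one_add_one_eq_two]).trans (prod_const _)
  · push Not at h
    obtain ⟨χ, hχ, hne⟩ := h
    refine prod_eq_zero hχ ?_
    rw [(real_apply (hI χ hχ) hn).resolve_left hne, add_neg_cancel]

/-- **The share of the common kernel of real characters.** -/
theorem sum_allOne_ge [NeZero m] {I : Finset (DirichletCharacter ℂ m)} (hI : ∀ χ ∈ I, χ ^ 2 = 1)
    {x E : ℝ} (hE0 : 0 ≤ E)
    (hE : ∀ χ : DirichletCharacter ℂ m, χ ^ 2 = 1 → χ ≠ 1 → ‖psiOneChar χ x‖ ≤ E) :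
    (∑ n ∈ coprimeRange m x, lamWt x n) / 2 ^ I.card - E ≤ ∑ n ∈ allOne I x, lamWt x n := by
  obtain ⟨U, hU⟩ : ∃ U, U = ∑ n ∈ coprimeRange m x, lamWt x n := ⟨_, rfl⟩
  obtain ⟨S, hS⟩ : ∃ S, S = ∑ n ∈ allOne I x, lamWt x n := ⟨_, rfl⟩
  rw [← hU, ← hS]
  have hU0 : 0 ≤ U := hU ▸ sum_nonneg fun n hn => lamWt_nonneg (mem_filter.1 hn).1
  have hone : psiOneChar (1 : DirichletCharacter ℂ m) x = (U : ℂ) := by
    rw [psiOneChar_eq_coprime, hU, Complex.ofReal_sum]
    exact sum_congr rfl fun n hn => by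
      rw [MulChar.one_apply ((ZMod.isUnit_iff_coprime n m).2 (mem_filter.1 hn).2), one_mul]
  have hid : ∑ T ∈ I.powerset, psiOneChar (∏ χ ∈ T, χ) x = (((2 : ℝ) ^ I.card * S : ℝ) : ℂ) := by
    simp only [psiOneChar_eq_coprime]
    rw [sum_comm, hS, allOne, sum_filter, mul_sum, Complex.ofReal_sum]
    refine sum_congr rfl fun n hn => ?_
    rw [← sum_mul, indicator_allOne hI (mem_filter.1 hn).2]
    split_ifs <;> simp
  have hre : (2 : ℝ) ^ I.card * S = ∑ T ∈ I.powerset, (psiOneChar (∏ χ ∈ T, χ) x).re := by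
    rw [← Complex.re_sum, hid, Complex.ofReal_re]
  rw [← add_sum_erase _ _ (empty_mem_powerset I), prod_empty, hone, Complex.ofReal_re] at hre
  have hbelow : -(((I.powerset.erase ∅).card : ℝ) * E) ≤
      ∑ T ∈ I.powerset.erase ∅, (psiOneChar (∏ χ ∈ T, χ) x).re := by
    rw [← nsmul_eq_mul, ← sum_const, ← sum_neg_distrib]
    refine sum_le_sum fun T hT => ?_
    by_cases h1 : (∏ χ ∈ T, χ) = 1
    · rw [h1, hone, Complex.ofReal_re]
      linarith
    · have hsq : (∏ χ ∈ T, χ) ^ 2 = 1 := by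
        rw [← prod_pow]
        exact prod_eq_one fun χ hχ => hI χ (mem_powerset.1 (mem_erase.1 hT).2 hχ)
      have h2 := Complex.abs_re_le_norm (psiOneChar (∏ χ ∈ T, χ) x)
      linarith [neg_abs_le (psiOneChar (∏ χ ∈ T, χ) x).re, hE _ hsq h1]
  have hc : ((I.powerset.erase ∅).card : ℝ) ≤ (2 : ℝ) ^ I.card := by
    refine le_trans (Nat.cast_le.2 (card_erase_le)) (le_of_eq ?_)
    rw [card_powerset, Nat.cast_pow, Nat.cast_ofNat]
  have hmul := mul_le_mul_of_nonneg_right hc hE0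
  rw [sub_le_iff_le_add, div_le_iff₀ (by positivity)]
  linarith

/-- The proper prime powers weigh at most `x (ψ x - θ x)`. -/
theorem sum_not_prime_le (s : Finset ℕ) {x : ℝ} (hx : 0 ≤ x) (hs : s ⊆ Icc 1 ⌊x⌋₊) :
    ∑ n ∈ s.filter (fun n => ¬ n.Prime), lamWt x n ≤ x * (ψ x - θ x) := by
  have h : ψ x - θ x = ∑ n ∈ (Ioc 0 ⌊x⌋₊).filter (fun n => ¬ n.Prime), Λ n := by
    have e := sum_filter_add_sum_filter_not (Ioc 0 ⌊x⌋₊) (fun n => n.Prime) (fun n => Λ n)
    have e2 : ∑ n ∈ (Ioc 0 ⌊x⌋₊).filter (fun n => n.Prime), Λ n = θ x := by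
      rw [Chebyshev.theta]
      exact sum_congr (filter_congr fun _ _ => Iff.rfl) fun p hp =>
        ArithmeticFunction.vonMangoldt_apply_prime (mem_filter.1 hp).2
    rw [Chebyshev.psi, ← e, e2]
    ring
  rw [h, mul_sum]
  refine le_trans (sum_le_sum fun n hn => ?_) (sum_le_sum_of_subset_of_nonneg (fun n hn => ?_)
    fun n _ _ => mul_nonneg hx ArithmeticFunction.vonMangoldt_nonneg)
  · rw [lamWt, mul_comm x]
    exact mul_le_mul_of_nonneg_left (by linarith [(Nat.cast_nonneg n : (0 : ℝ) ≤ n)])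
      ArithmeticFunction.vonMangoldt_nonneg
  · rw [mem_filter] at hn ⊢
    exact ⟨by have := mem_Icc.1 (hs hn.1); rw [mem_Ioc]; omega, hn.2⟩

/-- **A prime where the characters of `I` are all `1`.** -/
theorem exists_prime_allOne : ∃ A : ℝ, 1 ≤ A ∧ ∀ (m : ℕ) [NeZero m]
    (I : Finset (DirichletCharacter ℂ m)), (∀ χ ∈ I, χ ^ 2 = 1) →
    (∀ χ : DirichletCharacter ℂ m, χ ^ 2 = 1 → χ ≠ 1 → GRHFor χ) →
    ∃ p : ℕ, p.Prime ∧ p.Coprime m ∧ (∀ χ ∈ I, χ (p : ZMod m) = 1) ∧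
      (p : ℝ) ≤ A * (2 ^ I.card * Real.log (2 * m)) ^ 2 := by
  obtain ⟨C, hC, hpsi⟩ := LOneGRH.exists_psiOne_nontrivial
  obtain ⟨D, hD⟩ := Chebyshev.psi_sub_theta_le_mul_sqrt
  obtain ⟨r, hr⟩ : ∃ r, r = 32 * (C + 2 * |D|) + 100 := ⟨_, rfl⟩
  have hr100 : 100 ≤ r := by rw [hr]; linarith [abs_nonneg D]
  refine ⟨r ^ 2, by nlinarith, fun m _ I hI hG => ?_⟩
  obtain ⟨L, hL⟩ : ∃ L, L = Real.log (2 * m) := ⟨_, rfl⟩
  have hm : (1 : ℝ) ≤ m := Nat.one_le_cast.2 NeZero.one_le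
  have hL2 : 0.69 ≤ L := by
    rw [hL]
    linarith [Real.log_le_log two_pos (show (2 : ℝ) ≤ 2 * m by linarith), Real.log_two_gt_d9]
  obtain ⟨G, hG'⟩ : ∃ G : ℝ, G = 2 ^ I.card := ⟨_, rfl⟩
  have hG1 : 1 ≤ G := hG' ▸ one_le_pow₀ one_le_two
  obtain ⟨t, ht⟩ : ∃ t, t = r * (G * L) := ⟨_, rfl⟩
  have htL : 100 * L ≤ t := by
    calc 100 * L = 100 * (1 * L) := by ring
      _ ≤ t := by rw [ht]; gcongr
  obtain ⟨x, hx⟩ : ∃ x, x = t ^ 2 := ⟨_, rfl⟩
  have hsx : √x = t := hx ▸ Real.sqrt_sq (by linarith)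
  have hx40 : 40 ≤ x := by rw [hx]; nlinarith
  rw [← hG', ← hL, show r ^ 2 * (G * L) ^ 2 = x by rw [hx, ht]; ring]
  suffices h : 0 < ∑ n ∈ (allOne I x).filter Nat.Prime, lamWt x n by
    obtain ⟨p, hp, -⟩ := exists_ne_zero_of_sum_ne_zero h.ne'
    rw [mem_filter] at hp
    obtain ⟨h1, h2, h3⟩ := of_mem_allOne hp.1
    exact ⟨p, hp.2, h2, h3, (Nat.le_floor_iff (by linarith)).1 (mem_Icc.1 h1).2⟩
  have hU : x ^ 2 / 32 ≤ ∑ n ∈ coprimeRange m x, lamWt x n := by
    have h := AnkenyBound.psiOne_ge_of_trivial (1 : DirichletCharacter ℂ m) hx40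
      fun l hl hlm _ => MulChar.one_apply ((ZMod.isUnit_iff_coprime l m).2
        (hl.coprime_iff_not_dvd.2 hlm))
    rw [psiOneChar_eq_coprime, ← hL, hsx] at h
    have e : ∑ n ∈ coprimeRange m x, (1 : DirichletCharacter ℂ m) n * (lamWt x n : ℂ) =
        ((∑ n ∈ coprimeRange m x, lamWt x n : ℝ) : ℂ) := by
      rw [Complex.ofReal_sum]
      exact sum_congr rfl fun n hn => by
        rw [MulChar.one_apply ((ZMod.isUnit_iff_coprime n m).2 (mem_filter.1 hn).2), one_mul]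
    rw [e, Complex.norm_real, Real.norm_eq_abs, abs_of_nonneg
      (show 0 ≤ ∑ n ∈ coprimeRange m x, lamWt x n from
        sum_nonneg fun n hn => lamWt_nonneg (mem_filter.1 hn).1)] at h
    have h64 : 64 * L * t ≤ x := by
      rw [hx, pow_two]
      exact mul_le_mul_of_nonneg_right (by linarith) (by linarith)
    nlinarith
  have hS := sum_allOne_ge hI (x := x) (E := C * x * t * L)
    (mul_nonneg (mul_nonneg (mul_nonneg hC (by linarith)) (by linarith)) (by linarith))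
    fun χ h2 h1 => by
      rw [← hsx, hL]
      exact hpsi m χ h1 (hG χ h2 h1) x (by linarith)
  rw [← hG'] at hS
  have hU' := div_le_div_of_nonneg_right hU (show 0 ≤ G by linarith)
  have hsplit := sum_filter_add_sum_filter_not (allOne I x) Nat.Prime (lamWt x)
  have hpp := sum_not_prime_le (allOne I x) (show 0 ≤ x by linarith)
    fun n hn => (of_mem_allOne hn).1
  have hd := mul_le_mul_of_nonneg_left
    ((hD x).trans (mul_le_mul_of_nonneg_right (le_abs_self D) (Real.sqrt_nonneg x)))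
    (show 0 ≤ x by linarith)
  rw [hsx] at hd
  have key : x * (|D| * t) + C * x * t * L < x ^ 2 / 32 / G := by
    rw [lt_div_iff₀ (by linarith), lt_div_iff₀ (by norm_num)]
    calc (x * (|D| * t) + C * x * t * L) * G * 32
        ≤ (x * (|D| * t) * (2 * L) + C * x * t * L) * G * 32 := by
          have h0 : 0 ≤ x * (|D| * t) :=
            mul_nonneg (by linarith) (mul_nonneg (abs_nonneg D) (by linarith))
          have h12 : (1 : ℝ) ≤ 2 * L := by linarith
          have h1 := le_mul_of_one_le_right h0 h12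
          exact mul_le_mul_of_nonneg_right (mul_le_mul_of_nonneg_right (by linarith)
            (by linarith)) (by norm_num)
      _ = x * t * (32 * (C + 2 * |D|) * (G * L)) := by ring
      _ < x * t * t := by
          refine mul_lt_mul_of_pos_left ?_ (mul_pos (by linarith) (by linarith))
          rw [ht, hr]
          nlinarith
      _ = x ^ 2 := by rw [hx]; ring
  linarith

end FA.NonresidueOmega

end
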